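import Mathlib

/-!
# Abstract core of the q-expansion principle (P-IGUSA, IG-C)

`O` is a "Gauss valuation ring": a commutative ring with an injection `emb : O → E` into a field
and a reduction map `Red : O → Ek` into another field, whose kernel is generated by `l`, such that
elements with nonzero reduction are units and every nonzero element of a set `F ⊆ E` is a power of
`l` times (the image of) an element with nonzero reduction.

Main results:
* `GaussModel.mem_of_isIntegral` : elements of `F` integral over `O` come from `O`;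
* `GaussModel.linearIndependent_lift` : lifts of linearly independent reductions are linearly
  independent;
* `GaussModel.coords_mem` : coordinates of elements of `O` in such a basis come from `O`;
* `GaussModel.minpoly_coeff_mem` : the coefficients of the minimal polynomial over `K₀` of an element
  of `F` coming from `O` come from `O`.
-/

set_option autoImplicit false
set_option linter.unusedSectionVars false
set_option linter.unusedVariables false
set_option linter.style.haveILetI false

noncomputable section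

namespace Fermat.Agent.H56

open Polynomial

/-- A Gauss valuation ring `O ⊆ E` with reduction `Red : O → Ek`, uniformizer `l`, controlling the
subset `F ⊆ E`. -/
structure GaussModel {E Ek O : Type*} [Field E] [Field Ek] [CommRing O]
    (emb : O →+* E) (Red : O →+* Ek) (l : O) (F : Set E) : Prop where
  emb_inj : Function.Injective emb
  l_ne : l ≠ 0
  red_l : Red l = 0
  ker : ∀ u, Red u = 0 → ∃ w, u = l * w
  unit : ∀ u, Red u ≠ 0 → ∃ w, u * w = 1
  val : ∀ x ∈ F, x ≠ 0 → ∃ (m : ℤ) (u : O), emb u = emb l ^ m * x ∧ Red u ≠ 0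

namespace GaussModel

variable {E Ek O : Type*} [Field E] [Field Ek] [CommRing O]
  {emb : O →+* E} {Red : O →+* Ek} {l : O} {F : Set E}

theorem emb_l_ne (h : GaussModel emb Red l F) : emb l ≠ 0 := fun h0 =>
  h.l_ne (h.emb_inj (by rw [h0, map_zero]))

/-- If `emb u = l^(m+1) * emb w` then `Red u = 0`. -/
theorem red_eq_zero_of_emb_eq (h : GaussModel emb Red l F) {u w : O} {m : ℕ}
    (huw : emb u = emb l ^ (m + 1) * emb w) : Red u = 0 := by
  have : u = l ^ (m + 1) * w := h.emb_inj (by rw [huw, map_mul, map_pow])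
  rw [this, map_mul, map_pow, h.red_l, pow_succ, mul_zero, zero_mul]

/-- Elements of `F` whose positive `l`-power multiple... : membership criterion. If
`emb u = l^m * x` with `Red u ≠ 0` and `x = emb w`, then `m ≤ 0`. -/
theorem nonpos_of_mem (h : GaussModel emb Red l F) {x : E} {m : ℤ} {u w : O}
    (hu : emb u = emb l ^ m * x) (hru : Red u ≠ 0) (hw : emb w = x) : m ≤ 0 := by
  by_contra hm
  rw [not_le] at hm
  obtain ⟨k, rfl⟩ : ∃ k : ℕ, m = (k : ℤ) + 1 := ⟨(m - 1).toNat, by omega⟩
  apply hru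
  apply h.red_eq_zero_of_emb_eq (m := k) (w := w)
  rw [hu, hw]
  congr 1
  rw [← zpow_natCast]
  push_cast
  rfl

/-- If `emb u = l^m * x` with `m ≤ 0` then `x` comes from `O`. -/
theorem mem_of_nonpos (h : GaussModel emb Red l F) {x : E} {m : ℤ} {u : O}
    (hu : emb u = emb l ^ m * x) (hm : m ≤ 0) : ∃ w, emb w = x := by
  obtain ⟨k, rfl⟩ : ∃ k : ℕ, m = -(k : ℤ) := ⟨(-m).toNat, by omega⟩
  refine ⟨l ^ k * u, ?_⟩
  rw [map_mul, map_pow, hu, zpow_neg, zpow_natCast, ← mul_assoc,
    mul_inv_cancel₀ (pow_ne_zero _ h.emb_l_ne), one_mul]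

/-- **Integral closedness**: an element of `F` which is integral over `O` comes from `O`. -/
theorem mem_of_isIntegral (h : GaussModel emb Red l F) {y : E} (hy : y ∈ F)
    (hint : ∃ p : O[X], p.Monic ∧ p.eval₂ emb y = 0) : ∃ w, emb w = y := by
  by_cases hy0 : y = 0
  · exact ⟨0, by rw [hy0, map_zero]⟩
  obtain ⟨m, u, hu, hru⟩ := h.val y hy hy0
  by_cases hm : m ≤ 0
  · exact h.mem_of_nonpos hu hm
  exfalso
  rw [not_le] at hm
  obtain ⟨k, rfl⟩ : ∃ k : ℕ, m = (k : ℤ) + 1 := ⟨(m - 1).toNat, by omega⟩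
  obtain ⟨p, hp, hroot⟩ := hint
  -- scale the roots by `l^(k+1)`
  have hu' : emb u = emb (l ^ (k + 1)) * y := by
    rw [hu, map_pow, ← zpow_natCast]
    push_cast
    rfl
  have h1 : (scaleRoots p (l ^ (k + 1))).eval₂ emb (emb u) = 0 := by
    rw [hu', scaleRoots_eval₂_mul, hroot, mul_zero]
  have h2 : emb ((scaleRoots p (l ^ (k + 1))).eval u) = 0 := by
    rw [← h1, eval₂_at_apply]
  have h3 : (scaleRoots p (l ^ (k + 1))).eval u = 0 := h.emb_inj (by rw [h2, map_zero])
  have h4 : ((scaleRoots p (l ^ (k + 1))).map Red).eval (Red u) = 0 := by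
    rw [eval_map, eval₂_at_apply, h3, map_zero]
  have h5 : (scaleRoots p (l ^ (k + 1))).map Red = X ^ p.natDegree := by
    ext i
    rw [coeff_map, coeff_scaleRoots, coeff_X_pow]
    split_ifs with hi
    · rw [hi, Nat.sub_self, pow_zero, mul_one, hp.coeff_natDegree, map_one]
    · by_cases hlt : i < p.natDegree
      · have : p.natDegree - i = (p.natDegree - i - 1) + 1 := by omega
        rw [map_mul, map_pow, map_pow, h.red_l, this]
        simp
      · have : p.natDegree < i := by omega
        rw [coeff_eq_zero_of_natDegree_lt this, zero_mul, map_zero]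
  rw [h5, eval_pow, eval_X] at h4
  have hd : p.natDegree ≠ 0 := by
    intro h0
    rw [h0, pow_zero] at h4
    exact one_ne_zero h4
  exact hru ((pow_eq_zero_iff hd).1 h4)

/-- **Simultaneous scaling** of a finite family of elements of `F`, not all zero. -/
theorem exists_scale (h : GaussModel emb Red l F) {ι : Type*} [Fintype ι] (c : ι → E)
    (hc : ∀ i, c i ∈ F) (hne : ∃ i, c i ≠ 0) :
    ∃ (m : ℤ) (u : ι → O), (∀ i, emb (u i) = emb l ^ m * c i) ∧ ∃ i, Red (u i) ≠ 0 := by
  classical
  -- choose valuations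
  have hex : ∀ i, ∃ (m : ℤ) (u : O), emb u = emb l ^ m * c i ∧ (c i ≠ 0 → Red u ≠ 0) := by
    intro i
    by_cases hi : c i = 0
    · exact ⟨0, 0, by rw [hi, map_zero, mul_zero], fun hh => absurd hi hh⟩
    · obtain ⟨m, u, hu, hru⟩ := h.val (c i) (hc i) hi
      exact ⟨m, u, hu, fun _ => hru⟩
  choose mi ui hui hrui using hex
  obtain ⟨i₁, hi₁⟩ := hne
  -- the maximum of the `mi` over the nonzero `c i`
  let s : Finset ι := Finset.univ.filter (fun i => c i ≠ 0)
  have hs : s.Nonempty := ⟨i₁, by simp [s, hi₁]⟩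
  obtain ⟨i₀, hi₀s, hmax⟩ := Finset.exists_max_image s mi hs
  have hi₀ : c i₀ ≠ 0 := by simpa [s] using hi₀s
  refine ⟨mi i₀, fun i => if c i = 0 then 0 else l ^ (mi i₀ - mi i).toNat * ui i, ?_, i₀, ?_⟩
  · intro i
    by_cases hi : c i = 0
    · simp [hi]
    · have hle : mi i ≤ mi i₀ := hmax i (by simp [s, hi])
      simp only [hi, if_false]
      rw [map_mul, map_pow, hui i, ← mul_assoc, ← zpow_natCast, ← zpow_add₀ h.emb_l_ne]
      congr 2
      omega
  · simp only [hi₀, if_false, sub_self, Int.toNat_zero, pow_zero, one_mul]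
    exact hrui i₀ hi₀

section linear

variable {ι : Type*} [Fintype ι] (K₀ : Subfield E) (k₀ : Set Ek)

/-- **Lifting linear independence**: if the reductions of the `x i` are linearly independent over
`k₀`, then the `emb (x i)` are linearly independent over `K₀`. -/
theorem linearIndependent_lift (h : GaussModel emb Red l F) (hKF : (K₀ : Set E) ⊆ F)
    (hlK : emb l ∈ K₀) (hred : ∀ u, emb u ∈ K₀ → Red u ∈ k₀)
    (x : ι → O)
    (hy : ∀ d : ι → Ek, (∀ i, d i ∈ k₀) → ∑ i, d i * Red (x i) = 0 → ∀ i, d i = 0)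
    (c : ι → E) (hc : ∀ i, c i ∈ K₀) (hsum : ∑ i, c i * emb (x i) = 0) : ∀ i, c i = 0 := by
  by_contra hne
  rw [not_forall] at hne
  obtain ⟨m, u, hu, i₀, hi₀⟩ := h.exists_scale c (fun i => hKF (hc i)) hne
  have huK : ∀ i, emb (u i) ∈ K₀ := fun i => by
    rw [hu i]
    exact K₀.mul_mem (K₀.zpow_mem hlK m) (hc i)
  have h1 : emb (∑ i, u i * x i) = 0 := by
    rw [map_sum]
    simp only [map_mul, hu, mul_assoc]
    rw [← Finset.mul_sum, hsum, mul_zero]
  have h2 : ∑ i, u i * x i = 0 := h.emb_inj (by rw [h1, map_zero])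
  have h3 : ∑ i, Red (u i) * Red (x i) = 0 := by
    have := congrArg Red h2
    simp only [map_sum, map_mul, map_zero] at this
    exact this
  exact hi₀ (hy (fun i => Red (u i)) (fun i => hred _ (huK i)) h3 i₀)

/-- **Integrality of coordinates**: if `emb g = ∑ c i * emb (x i)` with `c i ∈ K₀` and the
reductions of the `x i` are linearly independent over `k₀`, then the `c i` come from `O`. -/
theorem coords_mem (h : GaussModel emb Red l F) (hKF : (K₀ : Set E) ⊆ F)
    (hlK : emb l ∈ K₀) (hred : ∀ u, emb u ∈ K₀ → Red u ∈ k₀)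
    (x : ι → O)
    (hy : ∀ d : ι → Ek, (∀ i, d i ∈ k₀) → ∑ i, d i * Red (x i) = 0 → ∀ i, d i = 0)
    (g : O) (c : ι → E) (hc : ∀ i, c i ∈ K₀) (hsum : emb g = ∑ i, c i * emb (x i)) :
    ∀ i, ∃ w, emb w = c i := by
  by_cases hne : ∃ i, c i ≠ 0
  · obtain ⟨m, u, hu, i₀, hi₀⟩ := h.exists_scale c (fun i => hKF (hc i)) hne
    by_cases hm : m ≤ 0
    · exact fun i => h.mem_of_nonpos (hu i) hm
    exfalso
    rw [not_le] at hm
    obtain ⟨k, rfl⟩ : ∃ k : ℕ, m = (k : ℤ) + 1 := ⟨(m - 1).toNat, by omega⟩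
    have huK : ∀ i, emb (u i) ∈ K₀ := fun i => by
      rw [hu i]
      exact K₀.mul_mem (K₀.zpow_mem hlK _) (hc i)
    have h1 : emb (∑ i, u i * x i) = emb (l ^ (k + 1) * g) := by
      rw [map_sum, map_mul, map_pow, hsum, Finset.mul_sum]
      refine Finset.sum_congr rfl fun i _ => ?_
      rw [map_mul, hu i, mul_assoc, ← zpow_natCast]
      push_cast
      rfl
    have h2 : ∑ i, u i * x i = l ^ (k + 1) * g := h.emb_inj h1
    have h3 : ∑ i, Red (u i) * Red (x i) = 0 := by
      have := congrArg Red h2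
      rw [map_sum, map_mul, map_pow, h.red_l, pow_succ, mul_zero, zero_mul] at this
      simpa only [map_mul] using this
    exact hi₀ (hy (fun i => Red (u i)) (fun i => hred _ (huK i)) h3 i₀)
  · rw [not_exists] at hne
    intro i
    refine ⟨0, ?_⟩
    rw [map_zero]
    exact (not_not.1 (hne i)).symm

end linear

section minpoly

variable {ι : Type*} [Fintype ι] (K₀ FF : Subfield E) (k₀ : Set Ek)

/-- **Main abstract result**: the coefficients of the minimal polynomial over `K₀` of an element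
`emb g ∈ FF` come from `O`, provided `FF` has a `K₀`-spanning family `emb (x i)` whose reductions
are linearly independent over `k₀ ⊇ Red (O ∩ K₀)`. -/
theorem minpoly_coeff_mem (h : GaussModel emb Red l (FF : Set E)) (hKF : K₀ ≤ FF)
    (hlK : emb l ∈ K₀) (hred : ∀ u, emb u ∈ K₀ → Red u ∈ k₀)
    (x : ι → O) (hxF : ∀ i, emb (x i) ∈ FF)
    (hy : ∀ d : ι → Ek, (∀ i, d i ∈ k₀) → ∑ i, d i * Red (x i) = 0 → ∀ i, d i = 0)
    (hspan : ∀ y ∈ FF, ∃ c : ι → E, (∀ i, c i ∈ K₀) ∧ y = ∑ i, c i * emb (x i))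
    (g : O) (hg : emb g ∈ FF) (i : ℕ) :
    ∃ w, emb w = ((minpoly K₀ (emb g)).coeff i : E) := by
  classical
  -- the subrings `O₀ ⊆ O_F` of `O`
  let O₀ : Subring O := K₀.toSubring.comap emb
  let OF : Subalgebra O₀ O :=
    { carrier := {u | emb u ∈ FF}
      mul_mem' := fun {a b} ha hb => by
        show emb (a * b) ∈ FF
        rw [map_mul]; exact FF.mul_mem ha hb
      add_mem' := fun {a b} ha hb => by
        show emb (a + b) ∈ FF
        rw [map_add]; exact FF.add_mem ha hb
      algebraMap_mem' := fun r => hKF r.2 }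
  have hOF : ∀ u, u ∈ OF ↔ emb u ∈ FF := fun u => Iff.rfl
  -- `O_F` is spanned by the `x i` over `O₀`
  have hfg : OF.toSubmodule.FG := by
    refine ⟨Finset.univ.image x, le_antisymm ?_ ?_⟩
    · rw [Submodule.span_le]
      intro y hy'
      rw [Finset.coe_image, Finset.coe_univ, Set.image_univ] at hy'
      obtain ⟨j, rfl⟩ := hy'
      exact hxF j
    · intro u hu
      obtain ⟨c, hc, hsum⟩ := hspan (emb u) hu
      have hw := h.coords_mem K₀ k₀ hKF hlK hred x hy u c hc hsum
      choose w hw using hw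
      have hu' : u = ∑ j, w j * x j := by
        apply h.emb_inj
        rw [hsum, map_sum]
        exact Finset.sum_congr rfl fun j _ => by rw [map_mul, hw j]
      rw [hu']
      refine Submodule.sum_mem _ fun j _ => ?_
      have hwj : w j ∈ O₀ := by
        show emb (w j) ∈ K₀
        rw [hw j]; exact hc j
      have : w j * x j = (⟨w j, hwj⟩ : O₀) • x j := rfl
      rw [this]
      exact Submodule.smul_mem _ _ (Submodule.subset_span (by simp))
  have hint : IsIntegral O₀ g := IsIntegral.of_mem_of_fg OF hfg g hg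
  obtain ⟨p, hp, hpg⟩ := hint
  -- the ring hom `O₀ → K₀`
  let φ : O₀ →+* K₀ := (emb.comp O₀.subtype).codRestrict K₀ (fun u => u.2)
  letI : Algebra O₀ K₀ := φ.toAlgebra
  have hφ : ∀ u : O₀, ((φ u : K₀) : E) = emb u := fun u => rfl
  have hroot : aeval (emb g) (p.map φ) = 0 := by
    rw [aeval_def, eval₂_map]
    have h1 : (algebraMap K₀ E).comp φ = emb.comp O₀.subtype := rfl
    rw [h1]
    have h2 : eval₂ (emb.comp O₀.subtype) (emb g) p = emb (eval₂ O₀.subtype g p) := by
      rw [hom_eval₂]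
    rw [h2]
    have h3 : eval₂ O₀.subtype g p = 0 := hpg
    rw [h3, map_zero]
  have hgint : IsIntegral K₀ (emb g) := ⟨p.map φ, hp.map φ, by rwa [aeval_def] at hroot⟩
  have hdvd : minpoly K₀ (emb g) ∣ p.map (algebraMap O₀ K₀) := minpoly.dvd K₀ (emb g) hroot
  have hci := Polynomial.isIntegral_coeff_of_dvd p (minpoly K₀ (emb g)) hp
    (minpoly.monic hgint) hdvd i
  obtain ⟨p', hp', hroot'⟩ := hci
  refine h.mem_of_isIntegral (hKF ((minpoly K₀ (emb g)).coeff i).2)
    ⟨p'.map O₀.subtype, hp'.map _, ?_⟩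
  rw [eval₂_map]
  have h4 : (eval₂ (algebraMap O₀ K₀) ((minpoly K₀ (emb g)).coeff i) p' : K₀) = 0 := hroot'
  have h5 := congrArg (algebraMap K₀ E) h4
  rw [map_zero, hom_eval₂] at h5
  exact h5

end minpoly

end GaussModel

end Fermat.Agent.H56
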