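import Mathlib
import Fermat.Prelude.Def_ModularCurve_X0ModL
import Fermat.Agent.H74.IgusaPolyJ

/-!
# Gauss-type facts about `ℚ(t)` for the q-expansion principle (P-IGUSA, IG-C, part C2)

`O` is any subring of a field `E ⊇ ℚ`, `Red : O →+* Ek` any ring homomorphism to a field of
characteristic `ℓ`, and `t ∈ O` has transcendental reduction.  Then

* `gauss_coeff` : a polynomial `P ∈ ℚ[X]` with `P(t) ∈ O` has `ℓ`-integral coefficients;
* `gauss_red_mem` : `Red (O ∩ ℚ(t)) ⊆ 𝔽_ℓ(Red t)`;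
* `exists_poly_of_integral_of_transcendental` : elements of `k(t)` integral over `k[t]` lie in
  `k[t]`.
-/

set_option autoImplicit false
set_option linter.unusedSectionVars false
set_option linter.unusedVariables false
set_option linter.style.haveILetI false

noncomputable section

namespace Fermat.Agent.H56

open Polynomial

/-- An element of `k(t)` integral over `k[t]` is a polynomial in `t` (`t` transcendental). -/
theorem exists_poly_of_integral_of_transcendental {k E : Type*} [Field k] [Field E] [Algebra k E]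
    (t : E) (ht : Transcendental k t) (x : E)
    (hx : x ∈ IntermediateField.adjoin k {t})
    (hint : IsIntegral (Algebra.adjoin k {t}) x) :
    ∃ P : Polynomial k, x = Polynomial.aeval t P := by
  classical
  have hinj : Function.Injective
      ((Polynomial.aeval (R := k) t : Polynomial k →ₐ[k] E) : Polynomial k →+* E) :=
    transcendental_iff_injective.mp ht
  let φ : RatFunc k →+* E := IsFractionRing.lift hinj
  have hφ : ∀ p : Polynomial k, φ (algebraMap (Polynomial k) (RatFunc k) p)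
      = Polynomial.aeval t p := fun p => IsFractionRing.lift_algebraMap hinj p
  obtain ⟨r, s, hrs⟩ := (IntermediateField.mem_adjoin_simple_iff k x).mp hx
  set w : RatFunc k := algebraMap (Polynomial k) (RatFunc k) r /
    algebraMap (Polynomial k) (RatFunc k) s with hw
  have hxw : φ w = x := by
    rw [hw, map_div₀, hφ, hφ, hrs]
  obtain ⟨p, hpm, hpx⟩ := hint
  let f : Polynomial k →+* Algebra.adjoin k {t} :=
    ((Polynomial.aeval (R := k) t).codRestrict (Algebra.adjoin k {t})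
      (fun q => by
        rw [Algebra.adjoin_singleton_eq_range_aeval]
        exact ⟨q, rfl⟩) : Polynomial k →ₐ[k] Algebra.adjoin k {t})
  have hf : Function.Surjective f := by
    rintro ⟨y, hy⟩
    rw [Algebra.adjoin_singleton_eq_range_aeval] at hy
    obtain ⟨q, hq⟩ := hy
    exact ⟨q, Subtype.ext hq⟩
  have hfval : ∀ q : Polynomial k,
      algebraMap (Algebra.adjoin k {t}) E (f q) = Polynomial.aeval t q := fun q => rfl
  obtain ⟨q, hqmap, -, hqm⟩ :=
    Polynomial.lifts_and_natDegree_eq_and_monic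
      ((Polynomial.mem_lifts p).mpr (Polynomial.map_surjective f hf p)) hpm
  have hcomp : (algebraMap (Algebra.adjoin k {t}) E).comp f
      = φ.comp (algebraMap (Polynomial k) (RatFunc k)) := by
    refine RingHom.ext fun a => ?_
    rw [RingHom.comp_apply, RingHom.comp_apply, hφ, hfval]
  have hw_int : IsIntegral (Polynomial k) w := by
    refine ⟨q, hqm, ?_⟩
    have h1 : φ (Polynomial.eval₂ (algebraMap (Polynomial k) (RatFunc k)) w q) = 0 := by
      rw [Polynomial.hom_eval₂, hxw, ← hcomp, ← Polynomial.eval₂_map, hqmap]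
      exact hpx
    exact (map_eq_zero_iff φ φ.injective).mp h1
  obtain ⟨P, hP⟩ := IsIntegrallyClosed.isIntegral_iff.mp hw_int
  exact ⟨P, by rw [← hxw, ← hP, hφ]⟩

/-- Reduction mod `ℓ` of an integer polynomial vanishes iff `ℓ` divides it. -/
theorem map_zmod_eq_zero_iff (ℓ : ℕ) (Q : ℤ[X]) :
    Q.map (Int.castRingHom (ZMod ℓ)) = 0 ↔ C (ℓ : ℤ) ∣ Q := by
  rw [Polynomial.C_dvd_iff_dvd_coeff]
  constructor
  · intro h i
    have := congrArg (fun p => p.coeff i) h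
    simp only [coeff_map, coeff_zero, eq_intCast] at this
    exact (ZMod.intCast_zmod_eq_zero_iff_dvd _ _).1 this
  · intro h
    ext i
    rw [coeff_map, coeff_zero, eq_intCast]
    exact (ZMod.intCast_zmod_eq_zero_iff_dvd _ _).2 (h i)

/-- **Normalisation**: a nonzero rational polynomial is, up to an integer prime to `ℓ` and a
power of `ℓ`, an integer polynomial with nonzero reduction mod `ℓ`. -/
theorem exists_normalize (ℓ : ℕ) [Fact ℓ.Prime] (P : ℚ[X]) (hP : P ≠ 0) :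
    ∃ (e k : ℕ) (b : ℤ) (Q : ℤ[X]), ¬ (ℓ : ℤ) ∣ b ∧ Q.map (Int.castRingHom (ZMod ℓ)) ≠ 0 ∧
      C ((((ℓ : ℤ) ^ e * b : ℤ) : ℚ)) * P = C ((((ℓ : ℤ) ^ k : ℤ) : ℚ)) * Q.map (Int.castRingHom ℚ) := by
  classical
  have hℓ : Prime (ℓ : ℤ) := Nat.prime_iff_prime_int.mp (Fact.out : ℓ.Prime)
  -- clear denominators
  obtain ⟨D, hD, hDP⟩ := IsLocalization.integerNormalization_spec (nonZeroDivisors ℤ) P
  set R : ℤ[X] := IsLocalization.integerNormalization (nonZeroDivisors ℤ) P with hR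
  have hD0 : D ≠ 0 := nonZeroDivisors.ne_zero hD
  have hDP' : R.map (Int.castRingHom ℚ) = C (D : ℚ) * P := by
    have : R.map (algebraMap ℤ ℚ) = D • P := hDP
    rw [show (algebraMap ℤ ℚ) = Int.castRingHom ℚ from rfl] at this
    rw [this, zsmul_eq_mul]
    simp
  have hR0 : R ≠ 0 := by
    intro h0
    rw [h0, Polynomial.map_zero] at hDP'
    have : C (D : ℚ) ≠ 0 := by
      rw [Ne, C_eq_zero]; exact_mod_cast hD0
    exact hP ((mul_eq_zero.mp hDP'.symm).resolve_left this)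
  -- factor out powers of `ℓ`
  have hCℓ : ¬ IsUnit (C (ℓ : ℤ) : ℤ[X]) := by
    rw [Polynomial.isUnit_C]
    exact hℓ.not_isUnit
  obtain ⟨k, Q, hQ, hRQ⟩ := WfDvdMonoid.max_power_factor' hR0 hCℓ
  obtain ⟨e, b, hb, hDb⟩ := WfDvdMonoid.max_power_factor' hD0 hℓ.not_isUnit
  refine ⟨e, k, b, Q, hb, fun h => hQ ((map_zmod_eq_zero_iff ℓ Q).1 h), ?_⟩
  rw [← hDb, ← hDP', hRQ, Polynomial.map_mul, Polynomial.map_pow, Polynomial.map_C]
  simp

section Gauss

variable (ℓ : ℕ) [Fact ℓ.Prime] {E Ek : Type*} [Field E] [Algebra ℚ E] [Field Ek]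
  [Algebra (ZMod ℓ) Ek] (O : Subring E) (Red : O →+* Ek) (t : E) (ht : t ∈ O)

theorem natCast_ne_zero_of_algebra_rat (n : ℕ) (hn : n ≠ 0) : (n : E) ≠ 0 := by
  have h : (n : E) = algebraMap ℚ E (n : ℚ) := by simp
  rw [h]
  intro h0
  have := (algebraMap ℚ E).injective (h0.trans (map_zero _).symm)
  exact hn (by exact_mod_cast this)

theorem red_prime_eq_zero : Red (ℓ : O) = 0 := by
  rw [map_natCast]
  have h : ((ℓ : ℕ) : Ek) = algebraMap (ZMod ℓ) Ek ((ℓ : ℕ) : ZMod ℓ) := (map_natCast _ _).symm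
  rw [h, ZMod.natCast_self, map_zero]

/-- Values of integer polynomials at `t` lie in `O`, and reduce to the values of the reduced
polynomial at `Red t`. -/
theorem red_intPoly (Q : ℤ[X]) :
    ∃ h : eval₂ (Int.castRingHom E) t Q ∈ O,
      Red ⟨_, h⟩ = aeval (Red ⟨t, ht⟩) (Q.map (Int.castRingHom (ZMod ℓ))) := by
  have h1 : eval₂ (Int.castRingHom E) t Q = O.subtype (eval₂ (Int.castRingHom O) ⟨t, ht⟩ Q) := by
    rw [hom_eval₂]
    congr 1
  refine ⟨by rw [h1]; exact Subtype.property _, ?_⟩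
  have h2 : (⟨eval₂ (Int.castRingHom E) t Q, by rw [h1]; exact Subtype.property _⟩ : O)
      = eval₂ (Int.castRingHom O) ⟨t, ht⟩ Q := Subtype.ext h1
  rw [h2, hom_eval₂, aeval_def, eval₂_map]
  congr 1
  exact RingHom.ext_int _ _

/-- **Gauss lemma**: if `P(t) ∈ O` for `P ∈ ℚ[X]` and `Red t` is transcendental, then the
coefficients of `P` are `ℓ`-integral. -/
theorem gauss_coeff (htr : Transcendental (ZMod ℓ) (Red ⟨t, ht⟩)) (P : ℚ[X])
    (hP : aeval t P ∈ O) (i : ℕ) : (P.coeff i).den.Coprime ℓ := by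
  classical
  by_cases hP0 : P = 0
  · rw [hP0, coeff_zero]; simp
  have hℓ : Prime (ℓ : ℤ) := Nat.prime_iff_prime_int.mp (Fact.out : ℓ.Prime)
  have hℓ0 : (ℓ : E) ≠ 0 := natCast_ne_zero_of_algebra_rat ℓ (Fact.out : ℓ.Prime).ne_zero
  obtain ⟨e, k, b, Q, hb, hQ, hPQ⟩ := exists_normalize ℓ P hP0
  obtain ⟨hQO, hQred⟩ := red_intPoly ℓ O Red t ht Q
  have hQne : aeval (Red ⟨t, ht⟩) (Q.map (Int.castRingHom (ZMod ℓ))) ≠ 0 := fun h0 =>
    hQ ((transcendental_iff_injective.mp htr) (h0.trans (map_zero _).symm))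
  -- evaluate the identity at `t`
  have hev : ((ℓ : E) ^ e * (b : E)) * aeval t P
      = (ℓ : E) ^ k * eval₂ (Int.castRingHom E) t Q := by
    have := congrArg (aeval t) hPQ
    rw [map_mul, map_mul, aeval_C, aeval_C] at this
    have h2 : aeval t (Q.map (Int.castRingHom ℚ)) = eval₂ (Int.castRingHom E) t Q := by
      rw [aeval_def, eval₂_map]
      congr 1
      exact RingHom.ext_int _ _
    rw [h2] at this
    have ha : (algebraMap ℚ E) ((((ℓ : ℤ) ^ e * b : ℤ) : ℚ)) = (ℓ : E) ^ e * (b : E) := by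
      push_cast
      simp
    have hb' : (algebraMap ℚ E) ((((ℓ : ℤ) ^ k : ℤ) : ℚ)) = (ℓ : E) ^ k := by
      push_cast
      simp
    rw [ha, hb'] at this
    exact this
  have hek : e ≤ k := by
    by_contra hlt
    rw [not_le] at hlt
    obtain ⟨d, rfl⟩ : ∃ d, e = k + (d + 1) := ⟨e - k - 1, by omega⟩
    have h1 : ((ℓ : E) ^ (d + 1) * (b : E)) * aeval t P = eval₂ (Int.castRingHom E) t Q := by
      have h2 : (ℓ : E) ^ k * (((ℓ : E) ^ (d + 1) * (b : E)) * aeval t P)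
          = (ℓ : E) ^ k * eval₂ (Int.castRingHom E) t Q := by
        rw [← hev]; ring
      exact mul_left_cancel₀ (pow_ne_zero _ hℓ0) h2
    have h3 : (⟨eval₂ (Int.castRingHom E) t Q, hQO⟩ : O)
        = ((ℓ : O) ^ (d + 1) * (b : O)) * ⟨aeval t P, hP⟩ := by
      apply Subtype.ext
      show eval₂ (Int.castRingHom E) t Q = _
      rw [← h1]
      push_cast
      rfl
    apply hQne
    rw [← hQred, h3, map_mul, map_mul, map_pow, red_prime_eq_zero, pow_succ, mul_zero, zero_mul,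
      zero_mul]
  obtain ⟨d, rfl⟩ : ∃ d, k = e + d := ⟨k - e, by omega⟩
  -- now `b * P = ℓ^d * Q`
  have hPQ' : C (b : ℚ) * P = C (((ℓ : ℤ) ^ d : ℤ) : ℚ) * Q.map (Int.castRingHom ℚ) := by
    have hℓq : (C ((((ℓ : ℤ) ^ e : ℤ) : ℚ)) : ℚ[X]) ≠ 0 := by
      rw [Ne, C_eq_zero]
      have : ((ℓ : ℤ) ^ e) ≠ 0 := pow_ne_zero _ hℓ.ne_zero
      exact_mod_cast this
    apply mul_left_cancel₀ hℓq
    rw [← mul_assoc, ← C_mul, ← mul_assoc, ← C_mul]
    convert hPQ using 3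
    · push_cast; ring
    · push_cast; ring
  have hb0 : (b : ℚ) ≠ 0 := by
    intro h0
    have : b = 0 := by exact_mod_cast h0
    exact hb (this ▸ dvd_zero _)
  have hcoeff : P.coeff i = (((ℓ : ℤ) ^ d * Q.coeff i : ℤ) : ℚ) / (b : ℚ) := by
    have := congrArg (fun p => p.coeff i) hPQ'
    simp only [coeff_C_mul, coeff_map, eq_intCast] at this
    rw [eq_div_iff hb0, mul_comm, this]
    push_cast
    ring
  rw [hcoeff]
  have hdvd : ((((ℓ : ℤ) ^ d * Q.coeff i : ℤ) : ℚ) / (b : ℚ)).den ∣ b.natAbs := by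
    have := Rat.den_dvd ((ℓ : ℤ) ^ d * Q.coeff i) b
    rw [Rat.divInt_eq_div] at this
    exact Int.natCast_dvd.mp this
  refine Nat.Coprime.coprime_dvd_left hdvd ?_
  rw [Nat.coprime_comm, (Fact.out : ℓ.Prime).coprime_iff_not_dvd]
  intro h
  exact hb (Int.natCast_dvd.mpr h)

/-- **Residue field of `ℚ(t)`**: the reduction of an element of `O ∩ ℚ(t)` lies in
`𝔽_ℓ(Red t)`. -/
theorem gauss_red_mem (htr : Transcendental (ZMod ℓ) (Red ⟨t, ht⟩)) (c : E)
    (hc : c ∈ IntermediateField.adjoin ℚ {t}) (hcO : c ∈ O) :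
    Red ⟨c, hcO⟩ ∈ IntermediateField.adjoin (ZMod ℓ) {Red ⟨t, ht⟩} := by
  classical
  set κ := IntermediateField.adjoin (ZMod ℓ) {Red ⟨t, ht⟩} with hκ
  by_cases hc0 : c = 0
  · have : (⟨c, hcO⟩ : O) = 0 := Subtype.ext hc0
    rw [this, map_zero]
    exact zero_mem _
  have hℓ : Prime (ℓ : ℤ) := Nat.prime_iff_prime_int.mp (Fact.out : ℓ.Prime)
  have hℓ0 : (ℓ : E) ≠ 0 := natCast_ne_zero_of_algebra_rat ℓ (Fact.out : ℓ.Prime).ne_zero
  obtain ⟨r, s, hrs⟩ := (IntermediateField.mem_adjoin_simple_iff ℚ c).mp hc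
  have hs0 : aeval t s ≠ 0 := by
    intro h0
    rw [h0, div_zero] at hrs
    exact hc0 hrs
  have hr0 : aeval t r ≠ 0 := by
    intro h0
    rw [h0, zero_div] at hrs
    exact hc0 hrs
  have hsP : s ≠ 0 := fun h => hs0 (by rw [h, map_zero])
  have hrP : r ≠ 0 := fun h => hr0 (by rw [h, map_zero])
  have hcs : c * aeval t s = aeval t r := by
    rw [hrs, div_mul_cancel₀ _ hs0]
  obtain ⟨e₁, k₁, b₁, R₁, hb₁, hR₁, hrR⟩ := exists_normalize ℓ r hrP
  obtain ⟨e₂, k₂, b₂, S₁, hb₂, hS₁, hsS⟩ := exists_normalize ℓ s hsP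
  obtain ⟨hRO, hRred⟩ := red_intPoly ℓ O Red t ht R₁
  obtain ⟨hSO, hSred⟩ := red_intPoly ℓ O Red t ht S₁
  have hRne : aeval (Red ⟨t, ht⟩) (R₁.map (Int.castRingHom (ZMod ℓ))) ≠ 0 := fun h0 =>
    hR₁ ((transcendental_iff_injective.mp htr) (h0.trans (map_zero _).symm))
  have hSne : aeval (Red ⟨t, ht⟩) (S₁.map (Int.castRingHom (ZMod ℓ))) ≠ 0 := fun h0 =>
    hS₁ ((transcendental_iff_injective.mp htr) (h0.trans (map_zero _).symm))
  -- evaluation of the normalisation identities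
  have hev : ∀ (e k : ℕ) (b : ℤ) (P : ℚ[X]) (Q : ℤ[X]),
      C ((((ℓ : ℤ) ^ e * b : ℤ) : ℚ)) * P = C ((((ℓ : ℤ) ^ k : ℤ) : ℚ)) * Q.map (Int.castRingHom ℚ) →
      ((ℓ : E) ^ e * (b : E)) * aeval t P = (ℓ : E) ^ k * eval₂ (Int.castRingHom E) t Q := by
    intro e k b P Q hPQ
    have := congrArg (aeval t) hPQ
    rw [map_mul, map_mul, aeval_C, aeval_C] at this
    have h2 : aeval t (Q.map (Int.castRingHom ℚ)) = eval₂ (Int.castRingHom E) t Q := by
      rw [aeval_def, eval₂_map]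
      congr 1
      exact RingHom.ext_int _ _
    rw [h2] at this
    have ha : (algebraMap ℚ E) ((((ℓ : ℤ) ^ e * b : ℤ) : ℚ)) = (ℓ : E) ^ e * (b : E) := by
      push_cast
      simp
    have hb' : (algebraMap ℚ E) ((((ℓ : ℤ) ^ k : ℤ) : ℚ)) = (ℓ : E) ^ k := by
      push_cast
      simp
    rw [ha, hb'] at this
    exact this
  have hr' := hev e₁ k₁ b₁ r R₁ hrR
  have hs' := hev e₂ k₂ b₂ s S₁ hsS
  -- the two elements of `O`
  set Rt : O := ⟨eval₂ (Int.castRingHom E) t R₁, hRO⟩ with hRt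
  set St : O := ⟨eval₂ (Int.castRingHom E) t S₁, hSO⟩ with hSt
  set u : O := (b₁ : O) * ⟨c, hcO⟩ * St with hu
  set v : O := (b₂ : O) * Rt with hv
  have hbne : ∀ b : ℤ, ¬ (ℓ : ℤ) ∣ b → Red (b : O) ≠ 0 := by
    intro b hb h0
    rw [map_intCast] at h0
    have h : ((b : ℤ) : Ek) = algebraMap (ZMod ℓ) Ek ((b : ℤ) : ZMod ℓ) := (map_intCast _ _).symm
    rw [h] at h0
    have h1 := (algebraMap (ZMod ℓ) Ek).injective (h0.trans (map_zero _).symm)
    exact hb ((ZMod.intCast_zmod_eq_zero_iff_dvd _ _).1 h1)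
  have hbmem : ∀ b : ℤ, Red (b : O) ∈ κ := by
    intro b
    rw [map_intCast]
    exact intCast_mem κ b
  have hRv : Red v ≠ 0 := by
    rw [hv, map_mul]
    exact mul_ne_zero (hbne b₂ hb₂) (by rw [hRt, hRred]; exact hRne)
  have hmemA : ∀ Q : ℤ[X], aeval (Red ⟨t, ht⟩) (Q.map (Int.castRingHom (ZMod ℓ))) ∈ κ := by
    intro Q
    exact IntermediateField.algebra_adjoin_le_adjoin _ _
      (Polynomial.aeval_mem_adjoin_singleton _ _)
  have hvmem : Red v ∈ κ := by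
    rw [hv, map_mul]
    exact mul_mem (hbmem b₂) (by rw [hRt, hRred]; exact hmemA R₁)
  -- the key identity in `E`
  have hkey : (ℓ : E) ^ (k₂ + e₁) * (u : E) = (ℓ : E) ^ (k₁ + e₂) * (v : E) := by
    have hu' : (u : E) = (b₁ : E) * c * eval₂ (Int.castRingHom E) t S₁ := by
      rw [hu]; push_cast; rfl
    have hv' : (v : E) = (b₂ : E) * eval₂ (Int.castRingHom E) t R₁ := by
      rw [hv]; push_cast; rfl
    rw [hu', hv']
    calc (ℓ : E) ^ (k₂ + e₁) * ((b₁ : E) * c * eval₂ (Int.castRingHom E) t S₁)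
        = ((ℓ : E) ^ e₁ * (b₁ : E)) * c * ((ℓ : E) ^ k₂ * eval₂ (Int.castRingHom E) t S₁) := by
          ring
      _ = ((ℓ : E) ^ e₁ * (b₁ : E)) * c * (((ℓ : E) ^ e₂ * (b₂ : E)) * aeval t s) := by rw [hs']
      _ = ((ℓ : E) ^ e₂ * (b₂ : E)) * (((ℓ : E) ^ e₁ * (b₁ : E)) * (c * aeval t s)) := by ring
      _ = ((ℓ : E) ^ e₂ * (b₂ : E)) * (((ℓ : E) ^ e₁ * (b₁ : E)) * aeval t r) := by rw [hcs]
      _ = ((ℓ : E) ^ e₂ * (b₂ : E)) * ((ℓ : E) ^ k₁ * eval₂ (Int.castRingHom E) t R₁) := by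
          rw [hr']
      _ = (ℓ : E) ^ (k₁ + e₂) * ((b₂ : E) * eval₂ (Int.castRingHom E) t R₁) := by ring
  have hAB : k₂ + e₁ ≤ k₁ + e₂ := by
    by_contra hlt
    rw [not_le] at hlt
    obtain ⟨d, hd⟩ : ∃ d, k₂ + e₁ = (k₁ + e₂) + (d + 1) := ⟨k₂ + e₁ - (k₁ + e₂) - 1, by omega⟩
    rw [hd, pow_add, mul_assoc] at hkey
    have h1 := mul_left_cancel₀ (pow_ne_zero _ hℓ0) hkey
    have h2 : v = (ℓ : O) ^ (d + 1) * u := by
      apply Subtype.ext
      rw [← h1]
      push_cast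
      rfl
    apply hRv
    rw [h2, map_mul, map_pow, red_prime_eq_zero, pow_succ, mul_zero, zero_mul]
  obtain ⟨d, hd⟩ : ∃ d, k₁ + e₂ = (k₂ + e₁) + d := ⟨k₁ + e₂ - (k₂ + e₁), by omega⟩
  have hkey' : (ℓ : E) ^ (k₂ + e₁) * (u : E) = (ℓ : E) ^ (k₂ + e₁) * ((ℓ : E) ^ d * (v : E)) := by
    rw [hkey, hd, pow_add, mul_assoc]
  have h1 := mul_left_cancel₀ (pow_ne_zero _ hℓ0) hkey'
  have h2 : u = (ℓ : O) ^ d * v := by
    apply Subtype.ext
    rw [h1]
    push_cast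
    rfl
  have humem : Red u ∈ κ := by
    rw [h2, map_mul, map_pow, map_natCast]
    exact mul_mem (pow_mem (natCast_mem κ ℓ) d) hvmem
  -- divide
  have hden : Red (b₁ : O) * Red St ≠ 0 :=
    mul_ne_zero (hbne b₁ hb₁) (by rw [hSt, hSred]; exact hSne)
  have hdenmem : Red (b₁ : O) * Red St ∈ κ :=
    mul_mem (hbmem b₁) (by rw [hSt, hSred]; exact hmemA S₁)
  have hfin : Red ⟨c, hcO⟩ = Red u / (Red (b₁ : O) * Red St) := by
    rw [eq_div_iff hden, hu, map_mul, map_mul]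
    ring
  rw [hfin]
  exact div_mem humem hdenmem

end Gauss

section Concrete

open ModularCurve

variable (ℓ : ℕ) [Fact ℓ.Prime] (O : Subring (LaurentSeries ℚ))
  (Red : O →+* LaurentSeries (ZMod ℓ))

theorem transcendental_inv' {k E : Type*} [Field k] [Field E] [Algebra k E] {x : E}
    (hx : Transcendental k x) : Transcendental k x⁻¹ := by
  intro h
  apply hx
  have := h.inv
  rwa [inv_inv] at this

theorem adjoin_inv_eq {k E : Type*} [Field k] [Field E] [Algebra k E] (x : E) :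
    IntermediateField.adjoin k {x⁻¹} = IntermediateField.adjoin k {x} := by
  apply le_antisymm
  · rw [IntermediateField.adjoin_simple_le_iff]
    exact inv_mem (IntermediateField.mem_adjoin_simple_self k x)
  · rw [IntermediateField.adjoin_simple_le_iff]
    have := inv_mem (IntermediateField.mem_adjoin_simple_self k x⁻¹)
    rwa [inv_inv] at this

theorem red_inv_eq (x : LaurentSeries ℚ) (hx : x ∈ O) (hxi : x⁻¹ ∈ O) (hne : x ≠ 0) :
    Red ⟨x⁻¹, hxi⟩ = (Red ⟨x, hx⟩)⁻¹ := by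
  have h1 : (⟨x, hx⟩ : O) * ⟨x⁻¹, hxi⟩ = 1 := Subtype.ext (mul_inv_cancel₀ hne)
  have h2 := congrArg Red h1
  rw [map_mul, map_one] at h2
  exact eq_inv_of_mul_eq_one_right h2

/-- **(hκ)** `Red (O ∩ ℚ(j)) ⊆ 𝔽_ℓ(j̄)`. -/
theorem igusa_C2_kappa (hj : jq ∈ O) (hRedj : Red ⟨jq, hj⟩ = jqModC (ZMod ℓ))
    (c : LaurentSeries ℚ) (hc : c ∈ IntermediateField.adjoin ℚ {jq}) (hcO : c ∈ O) :
    Red ⟨c, hcO⟩ ∈ IntermediateField.adjoin (ZMod ℓ) {jqModC (ZMod ℓ)} := by
  have htr : Transcendental (ZMod ℓ) (Red ⟨jq, hj⟩) := by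
    rw [hRedj]; exact Fermat.Agent.H74.transcendental_jq (ZMod ℓ)
  have := gauss_red_mem ℓ O Red jq hj htr c hc hcO
  rwa [hRedj] at this

/-- **(hcl), case `t = j`**: an element of `ℚ(j) ∩ O` which is integral over `ℚ[j]` is a
polynomial in `j` with `ℓ`-integral coefficients. -/
theorem igusa_C2_cl_j (hj : jq ∈ O) (hRedj : Red ⟨jq, hj⟩ = jqModC (ZMod ℓ))
    (c : LaurentSeries ℚ) (hc : c ∈ IntermediateField.adjoin ℚ {jq})
    (hint : IsIntegral (Algebra.adjoin ℚ {jq}) c) (hcO : c ∈ O) :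
    ∃ P : ℚ[X], (∀ i, (P.coeff i).den.Coprime ℓ) ∧ c = aeval jq P := by
  have htr : Transcendental (ZMod ℓ) (Red ⟨jq, hj⟩) := by
    rw [hRedj]; exact Fermat.Agent.H74.transcendental_jq (ZMod ℓ)
  have htQ : Transcendental ℚ jq := Fermat.Agent.H74.transcendental_jq ℚ
  obtain ⟨P, hP⟩ := exists_poly_of_integral_of_transcendental jq htQ c hc hint
  refine ⟨P, fun i => ?_, hP⟩
  exact gauss_coeff ℓ O Red jq hj htr P (hP ▸ hcO) i

/-- **(hcl), case `t = j⁻¹`**: an element of `ℚ(j) ∩ O` which is integral over `ℚ[j⁻¹]` is a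
polynomial in `j⁻¹` with `ℓ`-integral coefficients. -/
theorem igusa_C2_cl_jinv (hj : jq ∈ O) (hji : jq⁻¹ ∈ O) (hRedj : Red ⟨jq, hj⟩ = jqModC (ZMod ℓ))
    (c : LaurentSeries ℚ) (hc : c ∈ IntermediateField.adjoin ℚ {jq})
    (hint : IsIntegral (Algebra.adjoin ℚ {jq⁻¹}) c) (hcO : c ∈ O) :
    ∃ P : ℚ[X], (∀ i, (P.coeff i).den.Coprime ℓ) ∧ c = aeval jq⁻¹ P := by
  have htr : Transcendental (ZMod ℓ) (Red ⟨jq⁻¹, hji⟩) := by
    rw [red_inv_eq ℓ O Red jq hj hji jq_ne_zero, hRedj]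
    exact transcendental_inv' (Fermat.Agent.H74.transcendental_jq (ZMod ℓ))
  have htQ : Transcendental ℚ jq⁻¹ := transcendental_inv' (Fermat.Agent.H74.transcendental_jq ℚ)
  have hc' : c ∈ IntermediateField.adjoin ℚ {jq⁻¹} := by rw [adjoin_inv_eq]; exact hc
  obtain ⟨P, hP⟩ := exists_poly_of_integral_of_transcendental jq⁻¹ htQ c hc' hint
  refine ⟨P, fun i => ?_, hP⟩
  exact gauss_coeff ℓ O Red jq⁻¹ hji htr P (hP ▸ hcO) i

end Concrete

end Fermat.Agent.H56
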